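import Fermat.Agent.S59.H382.ChordUnit
import Fermat.Agent.Lib.Red.H290.Main
import Fermat.Agent.Lib.Frob.A1.H382.Main
import Fermat.Agent.S19.H255.AddMem
import Fermat.Agent.S59.H127.CardTorsion
import Fermat.Prelude.Def_FLTPrelim_GaloisRep

/-!
# Row S59, piece CR-FLAT (helper382): the normalised coordinates on `E(ℚ̄)`

`W` a Weierstrass curve over `ℤ`, `E = W_{ℚ̄}`.  The functions `coord W i : E(ℚ̄) → ℚ̄`
(`i = 0, 1, 2`: `x/ψ`, `y/ψ`, `1/ψ`) are Galois-equivariant, and on points of odd order they are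
integral over `ℤ_(p)` for every odd prime `p` of good reduction.
-/

set_option autoImplicit false
set_option linter.unusedSectionVars false
set_option linter.unusedVariables false

namespace Fermat.Agent.S59.H382

open WeierstrassCurve
open scoped WeierstrassCurve.Affine
open Fermat.Agent.Lib.Red.H290
open Fermat.Agent.S19 (Qb GalQ Rl Zb)

variable (W : WeierstrassCurve ℤ)

/-- the curve over `ℚ̄` -/
noncomputable abbrev EQ : WeierstrassCurve Qb := (W.map (Int.castRingHom ℚ))⁄Qb

/-- the points over `ℚ̄` (the Prelude's type) -/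
abbrev PtsQ : Type := ((W.map (Int.castRingHom ℚ))⁄Qb).Point

/-- the normalised coordinate functions -/
noncomputable def coord (i : Fin 3) (P : PtsQ W) : Qb := nrep (EQ W) P i

section local_

variable {W} (A : ValuationSubring Qb) {p : ℕ} [Fact p.Prime]

open Fermat.Agent.Lib.Frob.A1.H382 in
/-- the reduced curve -/
noncomputable abbrev Eκ (W : WeierstrassCurve ℤ) (A : ValuationSubring Qb) :
    WeierstrassCurve (IsLocalRing.ResidueField A) :=
  (WA W A)⁄(IsLocalRing.ResidueField A)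

open Fermat.Agent.Lib.Frob.A1.H382 in
lemma isRedOf_EQ : IsRedOf A (algebraMap A (IsLocalRing.ResidueField A)) (EQ W) (Eκ W A) := by
  have h := isRedOf_baseChange A (WA W A)
  rwa [curveK] at h

open Fermat.Agent.Lib.Frob.A1.H382 in
lemma Eκ_Δ_ne_zero (hA : A.LiesOverPrime p) (hgood : ¬ (p : ℤ) ∣ W.Δ) : (Eκ W A).Δ ≠ 0 :=
  Δ_baseChange_ne_zero A (WA W A) (isUnit_Δ W p A hA hgood)

open Fermat.Agent.Lib.Frob.A1.H382 in
lemma val_two_eq_one (hA : A.LiesOverPrime p) (hp2 : p ≠ 2) : A.valuation (2 : Qb) = 1 := by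
  have h := val_natCast_eq_one A (Fact.out : p.Prime) hA (n := 2) (by
    intro hdvd
    exact hp2 ((Nat.prime_dvd_prime_iff_eq (Fact.out : p.Prime) Nat.prime_two).mp hdvd))
  simpa using h

open scoped Classical in
/-- integrality at a place over `p` -/
theorem coord_mem (hA : A.LiesOverPrime p) (hgood : ¬ (p : ℤ) ∣ W.Δ) (hp2 : p ≠ 2)
    {P : PtsQ W} {N : ℕ} (hN : Odd N) (hP : N • P = 0) (i : Fin 3) : coord W i P ∈ A :=
  nrep_mem (isRedOf_EQ A) (kerMax_algebraMap A) (Eκ_Δ_ne_zero A hA hgood)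
    (val_two_eq_one A hA hp2) hN hP i

end local_

/-- An element of `ℚ̄` lying in every valuation subring over `p` is integral over `ℤ_(p)`. -/
theorem isIntegral_of_forall_mem {p : ℕ} (hp : p.Prime) {x : Qb}
    (h : ∀ A : ValuationSubring Qb, (p : Qb) ∈ A.nonunits → x ∈ A) : IsIntegral (Rl p) x := by
  by_contra hx
  have hx' : x ∉ (integralClosure (Rl p) Qb).toSubring := hx
  obtain ⟨V, hV, hxV⟩ := Subring.exists_le_valuationSubring_of_isIntegrallyClosedIn hx'
  have hV' : ∀ y : Qb, IsIntegral (Rl p) y → y ∈ V := fun y hy => hV hy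
  rcases Fermat.Agent.S19.H255.eq_top_or_liesOver_of_le hp V hV' with htop | hlo
  · exact hxV (htop ▸ ValuationSubring.mem_top x)
  · exact hxV (h V hlo)

/-- integrality over `ℤ_(p)` -/
theorem coord_isIntegral {p : ℕ} [Fact p.Prime] (hgood : ¬ (p : ℤ) ∣ W.Δ) (hp2 : p ≠ 2)
    {P : PtsQ W} {N : ℕ} (hN : Odd N) (hP : N • P = 0) (i : Fin 3) :
    IsIntegral (Rl p) (coord W i P) :=
  isIntegral_of_forall_mem Fact.out fun A hA => coord_mem A hA hgood hp2 hN hP i

/-- Galois equivariance -/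
theorem coord_smul (σ : GalQ) (P : PtsQ W) (i : Fin 3) :
    coord W i (σ • P) = σ (coord W i P) := by
  have ha₁ : σ (EQ W).a₁ = (EQ W).a₁ := σ.commutes _
  have ha₃ : σ (EQ W).a₃ = (EQ W).a₃ := σ.commutes _
  rcases P with _ | ⟨x, y, hxy⟩
  · show nrep (EQ W) (0 : (EQ W).toAffine.Point) i = σ (nrep (EQ W) (0 : (EQ W).toAffine.Point) i)
    rw [nrep_zero_eq]
    fin_cases i
    · exact (map_zero σ).symm
    · show (2 : Qb)⁻¹ = σ (2 : Qb)⁻¹
      rw [map_inv₀, map_ofNat]
    · exact (map_zero σ).symm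
  · have hs := Fermat.Agent.S05.GoodRed.smul_some (S := ℚ) (W' := W.map (Int.castRingHom ℚ)) σ hxy
    show nrep (EQ W) (σ • (Affine.Point.some x y hxy : PtsQ W)) i =
      σ (nrep (EQ W) (Affine.Point.some x y hxy) i)
    rw [hs]
    refine (congrFun (nrep_some_eq (EQ W) _) i).trans ?_
    rw [nrep_some_eq]
    fin_cases i
    · show σ x / _ = σ (x / _)
      rw [map_div₀, map_add, map_add, map_mul, map_mul, ha₁, ha₃, map_ofNat]
    · show σ y / _ = σ (y / _)
      rw [map_div₀, map_add, map_add, map_mul, map_mul, ha₁, ha₃, map_ofNat]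
    · show 1 / _ = σ (1 / _)
      rw [map_div₀, map_add, map_add, map_mul, map_mul, ha₁, ha₃, map_ofNat, map_one]

/-- the coordinates separate the points which are not `2`-torsion -/
theorem eq_of_coord_eq {P Q : PtsQ W} (hP : N2 (EQ W) P) (hQ : N2 (EQ W) Q)
    (h : ∀ i, coord W i P = coord W i Q) : P = Q := by
  have e : nrep (EQ W) P = nrep (EQ W) Q := funext h
  rw [← toAffine_nrep hP, ← toAffine_nrep hQ, e]

end Fermat.Agent.S59.H382
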