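import Fermat.Agent.S59.H382.ChordUnit

/-!
# Row S59, piece CR-FLAT (helper382): a complete addition law on odd torsion

With an auxiliary point `T` of odd order `q` prime to `n` (and to the residue characteristic), the
composite chord law

  `V(P₁, P₂) = addXYZ (addXYZ (nrep P₁) (nrep T)) (addXYZ (nrep P₂) (nrep (-T)))`

represents `P₁ + P₂` for ALL pairs of `n`-torsion points, with a unit denominator:
`V = L(V) • nrep (P₁ + P₂)` and `L(V) ∈ Aˣ`.
-/

set_option autoImplicit false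
set_option linter.unusedSectionVars false
set_option linter.unusedVariables false

namespace Fermat.Agent.S59.H382

open WeierstrassCurve
open scoped WeierstrassCurve.Projective
open Fermat.Agent.Lib.Red.H290
open Fermat.Agent.S05.SameRed (IntegralCoeffs InKer)

variable {K : Type*} [Field K] [DecidableEq K] {κ : Type*} [Field κ] [DecidableEq κ]
variable {A : ValuationSubring K} {φ : A →+* κ} {W : WeierstrassCurve K} {Wκ : WeierstrassCurve κ}

/-- the composite law -/
noncomputable def tripleLaw {R : Type*} [CommRing R] (W : WeierstrassCurve R)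
    (u₁ u₂ t t' : Fin 3 → R) : Fin 3 → R :=
  Projective.addXYZ W (Projective.addXYZ W u₁ t) (Projective.addXYZ W u₂ t')

lemma tripleLaw_map {R S : Type*} [CommRing R] [CommRing S] (W : WeierstrassCurve R)
    (f : R →+* S) (u₁ u₂ t t' : Fin 3 → R) :
    tripleLaw (W.map f) (f ∘ u₁) (f ∘ u₂) (f ∘ t) (f ∘ t') = f ∘ tripleLaw W u₁ u₂ t t' := by
  simp only [tripleLaw]
  rw [show W.map f = Projective.map W f from rfl, Projective.map_addXYZ, Projective.map_addXYZ,
    Projective.map_addXYZ]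

lemma eq_zero_of_coprime_nsmul {G : Type*} [AddCommGroup G] {n q : ℕ} (hcop : Nat.Coprime n q)
    {g : G} (hn : n • g = 0) (hq : q • g = 0) : g = 0 := by
  have h1 : addOrderOf g ∣ n := addOrderOf_dvd_of_nsmul_eq_zero hn
  have h2 : addOrderOf g ∣ q := addOrderOf_dvd_of_nsmul_eq_zero hq
  have h3 : addOrderOf g ∣ 1 := by
    have := Nat.dvd_gcd h1 h2
    rwa [hcop.gcd_eq_one] at this
  exact AddMonoid.addOrderOf_eq_one_iff.mp (Nat.dvd_one.mp h3)

/-- a nonzero `q`-torsion point and an `n`-torsion point have distinct reductions -/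
lemma red_ne_of_coprime (h : IsRedOf A φ W Wκ) (hφ : KerMax A φ) (hΔ : Wκ.Δ ≠ 0)
    {n q : ℕ} (hcop : Nat.Coprime n q) (hvq : A.valuation (q : K) = 1)
    {R S : W.toAffine.Point} (hR : q • R = 0) (hR0 : R ≠ 0) (hS : n • S = 0) :
    red h hΔ R ≠ red h hΔ S := by
  intro heq
  apply hR0
  apply eq_zero_of_red_eq_zero_of_nsmul h hΔ q hvq R hR
  have hn : n • red h hΔ R = 0 := by
    have := map_nsmul (redHom h hφ hΔ) n S
    simp only [redHom_apply] at this
    rw [heq, ← this, hS, red_zero]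
  have hq : q • red h hΔ R = 0 := by
    have := map_nsmul (redHom h hφ hΔ) q R
    simp only [redHom_apply] at this
    rw [← this, hR, red_zero]
  exact eq_zero_of_coprime_nsmul hcop hn hq

/-- **The complete addition law on `n`-torsion.** -/
theorem tripleLaw_nrep (h : IsRedOf A φ W Wκ) (hφ : KerMax A φ) (hΔ : Wκ.Δ ≠ 0)
    (h2 : A.valuation (2 : K) = 1) {n q : ℕ} (hn : Odd n) (hq : Odd q)
    (hcop : Nat.Coprime n q) (hvq : A.valuation (q : K) = 1)
    {T : W.toAffine.Point} (hT : q • T = 0) (hT0 : T ≠ 0)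
    {P₁ P₂ : W.toAffine.Point} (h₁ : n • P₁ = 0) (h₂ : n • P₂ = 0) :
    A.valuation (Lf W (tripleLaw W (nrep W P₁) (nrep W P₂) (nrep W T) (nrep W (-T)))) = 1 ∧
      tripleLaw W (nrep W P₁) (nrep W P₂) (nrep W T) (nrep W (-T)) =
        Lf W (tripleLaw W (nrep W P₁) (nrep W P₂) (nrep W T) (nrep W (-T))) •
          nrep W (P₁ + P₂) := by
  have h2K := two_ne_zero_of_val h2
  have hN : Odd (n * q) := hn.mul hq
  have k₁ : (n * q) • P₁ = 0 := by rw [mul_comm, mul_smul, h₁, smul_zero]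
  have k₂ : (n * q) • P₂ = 0 := by rw [mul_comm, mul_smul, h₂, smul_zero]
  have kT : (n * q) • T = 0 := by rw [mul_smul, hT, smul_zero]
  have hT' : q • (-T) = 0 := by rw [smul_neg, hT, neg_zero]
  have kT' : (n * q) • (-T) = 0 := by rw [smul_neg, kT, neg_zero]
  have hT'0 : -T ≠ 0 := neg_ne_zero.mpr hT0
  have k₁T : (n * q) • (P₁ + T) = 0 := by rw [smul_add, k₁, kT, add_zero]
  have k₂T : (n * q) • (P₂ + -T) = 0 := by rw [smul_add, k₂, kT', add_zero]
  have k₁₂ : (n * q) • (P₁ + P₂) = 0 := by rw [smul_add, k₁, k₂, add_zero]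
  -- distinct reductions
  have d₁ : red h hΔ P₁ ≠ red h hΔ T :=
    fun e => red_ne_of_coprime h hφ hΔ hcop hvq hT hT0 h₁ e.symm
  have d₂ : red h hΔ P₂ ≠ red h hΔ (-T) :=
    fun e => red_ne_of_coprime h hφ hΔ hcop hvq hT' hT'0 h₂ e.symm
  have hTT0 : T + T ≠ 0 := by
    intro e
    apply hT0
    have h2T : 2 • T = 0 := by rw [two_nsmul]; exact e
    have hc : Nat.Coprime 2 q := Nat.coprime_two_left.mpr hq
    exact eq_zero_of_coprime_nsmul hc h2T hT
  have d₃ : red h hΔ (P₁ + T) ≠ red h hΔ (P₂ + -T) := by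
    intro e
    have hS : n • (P₂ - P₁) = 0 := by rw [smul_sub, h₁, h₂, sub_zero]
    have hR : q • (T + T) = 0 := by rw [smul_add, hT, add_zero]
    refine red_ne_of_coprime h hφ hΔ hcop hvq hR hTT0 hS ?_
    have e1 := map_add (redHom h hφ hΔ) P₁ T
    have e2 := map_add (redHom h hφ hΔ) P₂ (-T)
    have e3 := map_add (redHom h hφ hΔ) T T
    have e4 := map_sub (redHom h hφ hΔ) P₂ P₁
    have e5 := map_neg (redHom h hφ hΔ) T
    simp only [redHom_apply] at e1 e2 e3 e4 e5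
    rw [e1, e2, e5] at e
    rw [e3, e4]
    have : red h hΔ T + red h hΔ T = red h hΔ P₂ - red h hΔ P₁ := by
      have e' : red h hΔ T = red h hΔ P₂ + -red h hΔ T - red h hΔ P₁ := by
        rw [← e]; abel
      calc red h hΔ T + red h hΔ T
          = red h hΔ T + (red h hΔ P₂ + -red h hΔ T - red h hΔ P₁) := by rw [← e']
        _ = red h hΔ P₂ - red h hΔ P₁ := by abel
    exact this
  obtain ⟨v₁, e₁⟩ := val_Lf_addXYZ h hφ hΔ h2 hN k₁ kT d₁
  obtain ⟨v₂, e₂⟩ := val_Lf_addXYZ h hφ hΔ h2 hN k₂ kT' d₂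
  obtain ⟨v₃, e₃⟩ := val_Lf_addXYZ h hφ hΔ h2 hN k₁T k₂T d₃
  have hsum : P₁ + T + (P₂ + -T) = P₁ + P₂ := by abel
  rw [hsum] at e₃
  set L₁ := Lf W (Projective.addXYZ W (nrep W P₁) (nrep W T)) with hL₁
  set L₂ := Lf W (Projective.addXYZ W (nrep W P₂) (nrep W (-T))) with hL₂
  set L₃ := Lf W (Projective.addXYZ W (nrep W (P₁ + T)) (nrep W (P₂ + -T))) with hL₃
  have hV : tripleLaw W (nrep W P₁) (nrep W P₂) (nrep W T) (nrep W (-T)) =
      ((L₁ * L₂) ^ 2 * L₃) • nrep W (P₁ + P₂) := by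
    rw [tripleLaw, e₁, e₂, Projective.addXYZ_smul, e₃, smul_smul]
  have hL : Lf W (tripleLaw W (nrep W P₁) (nrep W P₂) (nrep W T) (nrep W (-T))) =
      (L₁ * L₂) ^ 2 * L₃ := by
    rw [hV, Lf_smul, Lf_nrep (n2_of_odd_nsmul h2K hN k₁₂), mul_one]
  refine ⟨?_, ?_⟩
  · rw [hL, map_mul, map_pow, map_mul, v₁, v₂, v₃]
    simp
  · rw [hL]
    exact hV

end Fermat.Agent.S59.H382
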