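import Fermat.Agent.S59.H382.Global
import Fermat.Agent.S59.H382.Triple
import Fermat.Agent.A3.H619.OrdStatement

/-!
# Row S59, piece CR-FLAT (helper382): `E[n]` is finite flat at an odd prime of good reduction

`W` a Weierstrass curve over `ℤ`, `p` an odd prime with `p ∤ Δ(W)`, `n` odd.

* `orderDatum_torsion` : the torsion `E[n](ℚ̄)` with its Galois action carries an
  `Fermat.Agent.S19.OrderDatum p`;
* `hopfModel_torsion`  : hence it is the group of `ℚ̄`-points of a finite flat commutative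
  cocommutative Hopf algebra over `ℤ_(p)`, Galois-equivariantly
  (`Fermat.Agent.S19.HopfModel p`, the shape of `GaloisRepAdic.IsFlatAt`).

The generators are the three normalised projective coordinates `x/ψ`, `y/ψ`, `1/ψ`
(`ψ = 2y + a₁x + a₃`); the addition law is the composite chord law of `Triple.lean`, whose
denominator is a unit at every place over `p` for ALL pairs of `n`-torsion points.
-/

set_option autoImplicit false
set_option linter.unusedSectionVars false
set_option linter.unusedVariables false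

namespace Fermat.Agent.S59.H382

open WeierstrassCurve
open scoped WeierstrassCurve.Projective
open Fermat.Agent.Lib.Red.H290
open Fermat.Agent.S19 (Qb GalQ Rl Zb coordFunctions OrderDatum HopfModel)

variable (W : WeierstrassCurve ℤ)

/-- `E[n](ℚ̄)` (the Prelude's type) -/
abbrev Tor (n : ℕ) : Type := ↥(Submodule.torsionBy ℤ (PtsQ W) ((n : ℕ) : ℤ))

lemma EQ_Δ : (EQ W).Δ = ((W.Δ : ℤ) : Qb) := by
  show ((W.map (Int.castRingHom ℚ)).map (algebraMap ℚ Qb)).Δ = _
  rw [WeierstrassCurve.map_Δ, WeierstrassCurve.map_Δ]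
  simp

lemma isElliptic_EQ (hΔ : W.Δ ≠ 0) : (EQ W).IsElliptic := by
  refine ⟨?_⟩
  rw [EQ_Δ]
  exact (Int.cast_ne_zero.mpr hΔ).isUnit

lemma Δ_ne_zero_of_good {p : ℕ} (hgood : ¬ (p : ℤ) ∣ W.Δ) : W.Δ ≠ 0 :=
  fun h => hgood (h ▸ dvd_zero _)

lemma tor_nsmul {n : ℕ} (m : Tor W n) : n • (m : PtsQ W) = 0 := by
  have := m.2
  rwa [Submodule.mem_torsionBy_iff, natCast_zsmul] at this

lemma finite_tor (hΔ : W.Δ ≠ 0) {n : ℕ} (hn : 1 ≤ n) : Finite (Tor W n) := by
  have := isElliptic_EQ W hΔ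
  exact Fermat.Agent.S59.H127.finite_torsion (EQ W) n hn

lemma exists_torsion_point (hΔ : W.Δ ≠ 0) {q : ℕ} (hq : 2 ≤ q) :
    ∃ T : PtsQ W, q • T = 0 ∧ T ≠ 0 := by
  have := isElliptic_EQ W hΔ
  have hcard := Fermat.Agent.S59.H127.card_torsion_eq (EQ W) q
  have := finite_tor W hΔ (n := q) (by omega)
  have h1 : 1 < Nat.card (Tor W q) := by
    rw [hcard]
    nlinarith
  have : Nontrivial (Tor W q) := Finite.one_lt_card_iff_nontrivial.mp h1
  obtain ⟨m, hm⟩ := exists_ne (0 : Tor W q)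
  exact ⟨m.1, tor_nsmul W m, fun h => hm (Subtype.ext h)⟩

/-- the three coordinate functions on `E[n]` -/
def gensTor (n : ℕ) : Set (Tor W n → Qb) :=
  Set.range fun (j : Fin 3) (m : Tor W n) => coord W j m.1

variable {W}

/-- **The global addition law**: numerator and denominator in the coordinate ring, the
denominator a unit at `A₀` at every pair of points. -/
theorem exists_global_add {p : ℕ} [Fact p.Prime] (hp2 : p ≠ 2) (hgood : ¬ (p : ℤ) ∣ W.Δ)
    {n : ℕ} (hn : Odd n) (A₀ : ValuationSubring Qb) (hA₀ : (p : Qb) ∈ A₀.nonunits) (i : Fin 3) :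
    ∃ P ∈ Algebra.adjoin (Zb p) (coordFunctions (gensTor W n)),
    ∃ Q ∈ Algebra.adjoin (Zb p) (coordFunctions (gensTor W n)),
      ∀ m m' : Tor W n, Q (m, m') ∉ A₀.nonunits ∧
        Q (m, m') * coord W i ((m + m' : Tor W n) : PtsQ W) = P (m, m') := by
  classical
  have hΔ := Δ_ne_zero_of_good W hgood
  have hp : p.Prime := Fact.out
  have hnpos : 0 < n := hn.pos
  -- the auxiliary prime
  obtain ⟨q, hqge, hqp⟩ := Nat.exists_infinite_primes (n + p + 3)
  have hqodd : Odd q := hqp.odd_of_ne_two (by omega)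
  have hcop : Nat.Coprime n q := by
    refine Nat.Coprime.symm ((Nat.Prime.coprime_iff_not_dvd hqp).mpr fun h => ?_)
    have := Nat.le_of_dvd hnpos h
    omega
  have hvq : A₀.valuation ((q : ℕ) : Qb) = 1 :=
    Fermat.Agent.Lib.Frob.A1.H382.val_natCast_eq_one A₀ hp hA₀ (n := q) (fun hdvd => by
      have := (Nat.prime_dvd_prime_iff_eq hp hqp).mp hdvd
      omega)
  obtain ⟨T, hT, hT0⟩ := exists_torsion_point W hΔ hqp.two_le
  have hT' : q • (-T) = 0 := by rw [neg_nsmul, hT, neg_zero]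
  -- the coordinate ring
  let c1 : Fin 3 → Algebra.adjoin (Zb p) (coordFunctions (gensTor W n)) := fun j =>
    ⟨fun x => coord W j x.1.1, Algebra.subset_adjoin (Or.inl ⟨_, ⟨j, rfl⟩, rfl⟩)⟩
  let c2 : Fin 3 → Algebra.adjoin (Zb p) (coordFunctions (gensTor W n)) := fun j =>
    ⟨fun x => coord W j x.2.1, Algebra.subset_adjoin (Or.inr ⟨_, ⟨j, rfl⟩, rfl⟩)⟩
  let tB : Fin 3 → Algebra.adjoin (Zb p) (coordFunctions (gensTor W n)) := fun j =>
    ⟨fun _ => coord W j T, Fermat.Agent.S19.H255.const_mem_adjoin _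
      (coord_isIntegral W hgood hp2 hqodd hT j)⟩
  let tB' : Fin 3 → Algebra.adjoin (Zb p) (coordFunctions (gensTor W n)) := fun j =>
    ⟨fun _ => coord W j (-T), Fermat.Agent.S19.H255.const_mem_adjoin _
      (coord_isIntegral W hgood hp2 hqodd hT' j)⟩
  let WB : WeierstrassCurve (Algebra.adjoin (Zb p) (coordFunctions (gensTor W n))) :=
    W.map (Int.castRingHom _)
  refine ⟨((tripleLaw WB c1 c2 tB tB' i : Algebra.adjoin (Zb p) (coordFunctions (gensTor W n))) :
      Tor W n × Tor W n → Qb), (tripleLaw WB c1 c2 tB tB' i).2,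
    ((Lf WB (tripleLaw WB c1 c2 tB tB') : Algebra.adjoin (Zb p) (coordFunctions (gensTor W n))) :
      Tor W n × Tor W n → Qb), (Lf WB (tripleLaw WB c1 c2 tB tB')).2, ?_⟩
  intro m m'
  let ev : Algebra.adjoin (Zb p) (coordFunctions (gensTor W n)) →+* Qb :=
    (Pi.evalRingHom (fun _ : Tor W n × Tor W n => Qb) (m, m')).comp
      (Algebra.adjoin (Zb p) (coordFunctions (gensTor W n))).val.toRingHom
  have hW : WB.map ev = EQ W := by
    show (W.map _).map _ = (W.map _).map _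
    rw [WeierstrassCurve.map_map, WeierstrassCurve.map_map]
    congr 1
  have hc1 : ev ∘ c1 = nrep (EQ W) m.1 := rfl
  have hc2 : ev ∘ c2 = nrep (EQ W) m'.1 := rfl
  have ht : ev ∘ tB = nrep (EQ W) T := rfl
  have ht' : ev ∘ tB' = nrep (EQ W) (-T) := rfl
  have key := tripleLaw_map WB ev c1 c2 tB tB'
  rw [hW, hc1, hc2, ht, ht'] at key
  have hL := Lf_map WB ev (tripleLaw WB c1 c2 tB tB')
  rw [hW, ← key] at hL
  obtain ⟨hv, he⟩ := tripleLaw_nrep (isRedOf_EQ A₀) (kerMax_algebraMap A₀)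
    (Eκ_Δ_ne_zero A₀ hA₀ hgood) (val_two_eq_one A₀ hA₀ hp2) hn hqodd hcop hvq hT hT0
    (tor_nsmul W m) (tor_nsmul W m')
  rw [hL] at hv he
  constructor
  · show ev (Lf WB (tripleLaw WB c1 c2 tB tB')) ∉ A₀.nonunits
    intro hmem
    rw [ValuationSubring.mem_nonunits_iff, hv] at hmem
    exact lt_irrefl _ hmem
  · show ev (Lf WB (tripleLaw WB c1 c2 tB tB')) * nrep (EQ W) (m.1 + m'.1) i =
      ev (tripleLaw WB c1 c2 tB tB' i)
    have h1 := congrFun he i
    have h2 := congrFun key i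
    rw [h2] at h1
    exact h1.symm

/-- **ELL-ORD.**  For an odd prime `p` of good reduction and odd `n`, the `n`-torsion of `E(ℚ̄)`
carries an order datum at `p`. -/
theorem orderDatum_torsion (W : WeierstrassCurve ℤ) (p : ℕ) [Fact p.Prime] (hp2 : p ≠ 2)
    (hgood : ¬ (p : ℤ) ∣ W.Δ) (n : ℕ) (hn : Odd n) :
    Nonempty (OrderDatum p (Tor W n) (fun σ m => σ • m)) := by
  have hΔ := Δ_ne_zero_of_good W hgood
  have hp : p.Prime := Fact.out
  obtain ⟨A₀, hA₀⟩ := Fermat.Agent.S19.H255.exists_valuationSubring_over hp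
  have := finite_tor W hΔ (n := n) hn.pos
  have h2 : (2 : Qb) ≠ 0 := two_ne_zero
  refine ⟨Fermat.Agent.S19.H255.orderDatum_of_local hp (fun σ m => σ • m)
    (fun σ a b => smul_add σ a b) (gensTor W n) ?_ ?_ ?_ A₀ hA₀ ?_⟩
  · rintro _ ⟨j, rfl⟩ σ m
    exact coord_smul W σ m.1 j
  · rintro _ ⟨j, rfl⟩ m
    exact coord_isIntegral W hgood hp2 hn (tor_nsmul W m) j
  · intro m m' h
    apply Subtype.ext
    apply eq_of_coord_eq W (n2_of_odd_nsmul h2 hn (tor_nsmul W m))
      (n2_of_odd_nsmul h2 hn (tor_nsmul W m'))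
    intro j
    exact h _ ⟨j, rfl⟩
  · rintro _ ⟨i, rfl⟩ m₀ m₀'
    obtain ⟨P, hP, Q, hQ, hPQ⟩ := exists_global_add hp2 hgood hn A₀ hA₀ i
    exact ⟨P, hP, Q, hQ, (hPQ m₀ m₀').1, fun m m' _ _ => (hPQ m m').2⟩

/-- **CR-FLAT core.**  For an odd prime `p` of good reduction and odd `n` (e.g. `n = p ^ k`),
`E[n](ℚ̄)` is, Galois-equivariantly, the group of `ℚ̄`-points of a finite flat commutative
cocommutative Hopf algebra over `ℤ_(p)`. -/
theorem hopfModel_torsion (W : WeierstrassCurve ℤ) (p : ℕ) [Fact p.Prime] (hp2 : p ≠ 2)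
    (hgood : ¬ (p : ℤ) ∣ W.Δ) (n : ℕ) (hn : Odd n) :
    HopfModel p (Tor W n) (fun σ m => σ • m) := by
  have := finite_tor W (Δ_ne_zero_of_good W hgood) (n := n) hn.pos
  exact Fermat.Agent.A3.H619.ord p (Tor W n) _ (orderDatum_torsion W p hp2 hgood n hn)

/-- the same for `E[p ^ k]` -/
theorem hopfModel_torsion_pow (W : WeierstrassCurve ℤ) (p : ℕ) [Fact p.Prime] (hp2 : p ≠ 2)
    (hgood : ¬ (p : ℤ) ∣ W.Δ) (k : ℕ) :
    HopfModel p (Tor W (p ^ k)) (fun σ m => σ • m) :=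
  hopfModel_torsion W p hp2 hgood (p ^ k)
    (((Fact.out : p.Prime).odd_of_ne_two hp2).pow)

end Fermat.Agent.S59.H382
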