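import Fermat.Agent.S59.H382.Integral

/-!
# Row S59, piece CR-FLAT (helper382): the chord law has a unit denominator

If `P`, `Q` are points of odd order with distinct reductions, then the chord law
`addXYZ (nrep P) (nrep Q) = L • nrep (P + Q)` holds with `L` a unit of `A`.
-/

set_option autoImplicit false
set_option linter.unusedSectionVars false
set_option linter.unusedVariables false

namespace Fermat.Agent.S59.H382

open WeierstrassCurve
open scoped WeierstrassCurve.Projective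
open Fermat.Agent.Lib.Red.H290
open Fermat.Agent.S05.SameRed (IntegralCoeffs InKer)

variable {K : Type*} [Field K] [DecidableEq K] {κ : Type*} [Field κ] [DecidableEq κ]
variable {A : ValuationSubring K} {φ : A →+* κ} {W : WeierstrassCurve K} {Wκ : WeierstrassCurve κ}

/-- A curve over `A` lifting `W` and `Wκ`. -/
lemma exists_curve_lift (h : IsRedOf A φ W Wκ) :
    ∃ W₀ : WeierstrassCurve A, W₀.map A.subtype = W ∧ W₀.map φ = Wκ := by
  obtain ⟨c₁, c₂, c₃, c₄, c₆, e₁, e₂, e₃, e₄, e₆, f₁, f₂, f₃, f₄, f₆⟩ := h.exists_lift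
  refine ⟨⟨c₁, c₂, c₃, c₄, c₆⟩, ?_, ?_⟩
  · ext
    · exact e₁
    · exact e₂
    · exact e₃
    · exact e₄
    · exact e₆
  · ext
    · exact f₁
    · exact f₂
    · exact f₃
    · exact f₄
    · exact f₆

lemma exists_rep0_eq_one (W : WeierstrassCurve κ) (R : W.toAffine.Point) :
    ∃ i, rep0 W R i = 1 := by
  rcases R with _ | ⟨x, y, h⟩
  · exact ⟨1, rfl⟩
  · exact ⟨2, rfl⟩

lemma two_ne_zero_of_val (h2 : A.valuation (2 : K) = 1) : (2 : K) ≠ 0 := by
  intro h0
  rw [h0, map_zero] at h2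
  exact zero_ne_one h2

/-- **The chord law with unit denominator.** -/
theorem val_Lf_addXYZ (h : IsRedOf A φ W Wκ) (hφ : KerMax A φ) (hΔ : Wκ.Δ ≠ 0)
    (h2 : A.valuation (2 : K) = 1) {P Q : W.toAffine.Point} {N : ℕ} (hN : Odd N)
    (hP : N • P = 0) (hQ : N • Q = 0) (hne : red h hΔ P ≠ red h hΔ Q) :
    A.valuation (Lf W (Projective.addXYZ W (nrep W P) (nrep W Q))) = 1 ∧
      Projective.addXYZ W (nrep W P) (nrep W Q) =
        Lf W (Projective.addXYZ W (nrep W P) (nrep W Q)) • nrep W (P + Q) := by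
  have h2K := two_ne_zero_of_val h2
  have hPQne : P ≠ Q := fun e => hne (by rw [e])
  have hPQ : N • (P + Q) = 0 := by rw [smul_add, hP, hQ, add_zero]
  obtain ⟨hL0, hV⟩ := addXYZ_nrep (n2_of_odd_nsmul h2K hN hP) (n2_of_odd_nsmul h2K hN hQ)
    (n2_of_odd_nsmul h2K hN hPQ) hPQne
  refine ⟨?_, hV⟩
  obtain ⟨W₀, hW₀, hW₀κ⟩ := exists_curve_lift h
  -- integral lifts of the coordinates
  let uP : Fin 3 → A := fun i => ⟨nrep W P i, nrep_mem h hφ hΔ h2 hN hP i⟩
  let uQ : Fin 3 → A := fun i => ⟨nrep W Q i, nrep_mem h hφ hΔ h2 hN hQ i⟩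
  have huP : (A.subtype : A → K) ∘ uP = nrep W P := rfl
  have huQ : (A.subtype : A → K) ∘ uQ = nrep W Q := rfl
  have huPκ : (φ : A → κ) ∘ uP = rdv A φ (nrep W P) := by
    funext i
    exact (rd_of_mem (nrep_mem h hφ hΔ h2 hN hP i)).symm
  have huQκ : (φ : A → κ) ∘ uQ = rdv A φ (nrep W Q) := by
    funext i
    exact (rd_of_mem (nrep_mem h hφ hΔ h2 hN hQ i)).symm
  set V₀ : Fin 3 → A := Projective.addXYZ W₀ uP uQ with hV₀
  have hVK : Projective.addXYZ W (nrep W P) (nrep W Q) = (A.subtype : A → K) ∘ V₀ := by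
    rw [hV₀, ← Projective.map_addXYZ, huP, huQ, show Projective.map W₀ A.subtype = W from hW₀]
  have hVκ : Projective.addXYZ Wκ (rdv A φ (nrep W P)) (rdv A φ (nrep W Q)) =
      (φ : A → κ) ∘ V₀ := by
    rw [hV₀, ← Projective.map_addXYZ, huPκ, huQκ, show Projective.map W₀ φ = Wκ from hW₀κ]
  -- nonsingularity over the residue field
  have hns := (addXYZ_rep (nonsingular_rdv h hφ hΔ h2 hN hP) (nonsingular_rdv h hφ hΔ h2 hN hQ)
    (by rw [toAffine_rdv h hφ hΔ h2 hN hP, toAffine_rdv h hφ hΔ h2 hN hQ]; exact hne)).1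
  obtain ⟨u, hu, hVu⟩ := exists_smul_rep0 Wκ hns
  obtain ⟨i, hi⟩ := exists_rep0_eq_one Wκ
    (Projective.Point.toAffine Wκ (Projective.addXYZ Wκ (rdv A φ (nrep W P))
      (rdv A φ (nrep W Q))))
  have hφi : φ (V₀ i) ≠ 0 := by
    have e1 : φ (V₀ i) = ((φ : A → κ) ∘ V₀) i := rfl
    rw [e1, ← hVκ, hVu, Pi.smul_apply, hi, smul_eq_mul, mul_one]
    exact hu
  have hvi : A.valuation ((V₀ i : A) : K) = 1 := by
    refine le_antisymm (val_le_of_mem (V₀ i).2) (not_lt.mp fun hlt => hφi ((hφ (V₀ i)).mpr hlt))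
  -- the `i`-th coordinate
  have hcoord : ((V₀ i : A) : K) =
      Lf W (Projective.addXYZ W (nrep W P) (nrep W Q)) * nrep W (P + Q) i := by
    have e1 : ((V₀ i : A) : K) = ((A.subtype : A → K) ∘ V₀) i := rfl
    rw [e1, ← hVK]
    conv_lhs => rw [hV]
    rfl
  have hLA : Lf W (Projective.addXYZ W (nrep W P) (nrep W Q)) ∈ A := by
    rw [hVK, ← hW₀, Lf_map]
    exact (Lf W₀ V₀).2
  have hnA := nrep_mem h hφ hΔ h2 hN hPQ i
  rw [hcoord, map_mul] at hvi
  refine le_antisymm (val_le_of_mem hLA) ?_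
  calc (1 : _) = A.valuation (Lf W (Projective.addXYZ W (nrep W P) (nrep W Q))) *
        A.valuation (nrep W (P + Q) i) := hvi.symm
    _ ≤ A.valuation (Lf W (Projective.addXYZ W (nrep W P) (nrep W Q))) * 1 :=
        mul_le_mul_right (val_le_of_mem hnA) _
    _ = _ := mul_one _

end Fermat.Agent.S59.H382
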