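import Fermat.Agent.S59.H382.NRep
import Fermat.Agent.Lib.Red.H290.RedHom
import Fermat.Agent.S05.H245Val

/-!
# Row S59, piece CR-FLAT (helper382): integrality of the normalised coordinates

`A` a valuation subring of `K` in which `2` is a unit, `W` a Weierstrass curve over `K` with
coefficients in `A` and good reduction `Wκ`.  For a point `P` of odd order:

* `nrep_mem` : the normalised coordinates of `P` lie in `A`;
* `exists_rdv_eq` : their reductions form a projective representative of `red P`;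
* `val_Lf_addXYZ` : if `red P ≠ red Q`, the denominator `L(addXYZ (nrep P) (nrep Q))` of the
  chord law is a unit of `A`.
-/

set_option autoImplicit false
set_option linter.unusedSectionVars false
set_option linter.unusedVariables false

namespace Fermat.Agent.S59.H382

open WeierstrassCurve
open scoped WeierstrassCurve.Projective
open Fermat.Agent.Lib.Red.H290
open Fermat.Agent.S05.SameRed (IntegralCoeffs InKer)

variable {K : Type*} [Field K] [DecidableEq K] {κ : Type*} [Field κ] [DecidableEq κ]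
variable {A : ValuationSubring K} {φ : A →+* κ} {W : WeierstrassCurve K} {Wκ : WeierstrassCurve κ}

/-- the reduced coordinate vector -/
noncomputable def rdv (A : ValuationSubring K) (φ : A →+* κ) (V : Fin 3 → K) : Fin 3 → κ :=
  fun i => rd A φ (V i)

lemma intCoeffs_of_isRedOf (h : IsRedOf A φ W Wκ) :
    Fermat.Agent.S05.H245.IntCoeffs A.valuation W :=
  ⟨h.integralCoeffs.a₁, h.integralCoeffs.a₂, h.integralCoeffs.a₃, h.integralCoeffs.a₄,
    h.integralCoeffs.a₆⟩

lemma two_ne_zero_res (hφ : KerMax A φ) (h2 : A.valuation (2 : K) = 1) : (2 : κ) ≠ 0 := by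
  have := (rd_ne_zero_iff hφ (mem_of_val_le h2.le)).mpr h2
  rwa [rd_ofNat] at this

lemma nrep_zero_eq (W : WeierstrassCurve K) :
    nrep W (0 : W.toAffine.Point) = ![0, (2 : K)⁻¹, 0] := by
  have hL : Lf W (rep0 W (0 : W.toAffine.Point)) = 2 := by
    show Lf W ![0, 1, 0] = 2
    simp [Lf]
  rw [nrep, hL]
  show (2 : K)⁻¹ • ![(0 : K), 1, 0] = _
  funext i
  fin_cases i <;> simp

lemma nrep_some_eq (W : WeierstrassCurve K) {x y : K} (hxy : W.toAffine.Nonsingular x y) :
    nrep W (Affine.Point.some x y hxy) =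
      ![x / (2 * y + W.a₁ * x + W.a₃), y / (2 * y + W.a₁ * x + W.a₃),
        1 / (2 * y + W.a₁ * x + W.a₃)] := by
  have hL : Lf W (rep0 W (Affine.Point.some x y hxy)) = 2 * y + W.a₁ * x + W.a₃ := by
    show Lf W ![x, y, 1] = _
    simp [Lf]
  rw [nrep, hL]
  show (2 * y + W.a₁ * x + W.a₃)⁻¹ • ![x, y, 1] = _
  funext i
  fin_cases i <;> simp [div_eq_inv_mul]

/-- The normalised coordinates of a point of odd order are integral, and reduce to a
representative of the reduction of the point. -/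
theorem exists_rdv_eq (h : IsRedOf A φ W Wκ) (hφ : KerMax A φ) (hΔ : Wκ.Δ ≠ 0)
    (h2 : A.valuation (2 : K) = 1) {P : W.toAffine.Point} {N : ℕ} (hN : Odd N)
    (hP : N • P = 0) :
    (∀ i, nrep W P i ∈ A) ∧
      ∃ c : κ, c ≠ 0 ∧ rdv A φ (nrep W P) = c • rep0 Wκ (red h hΔ P) := by
  have h2κ := two_ne_zero_res hφ h2
  have h2A : (2 : K) ∈ A := mem_of_val_le h2.le
  rcases P with _ | ⟨x, y, hxy⟩
  · -- the origin
    have hn := nrep_zero_eq W
    change nrep W (0 : W.toAffine.Point) = _ at hn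
    have hi : (2 : K)⁻¹ ∈ A := inv_mem_of_val_eq_one h2
    refine ⟨?_, rd A φ (2 : K)⁻¹, ?_, ?_⟩
    · intro i
      change nrep W (0 : W.toAffine.Point) i ∈ A
      rw [hn]
      fin_cases i
      · exact A.zero_mem
      · exact hi
      · exact A.zero_mem
    · rw [rd_ne_zero_iff hφ hi, map_inv₀, h2, inv_one]
    · change rdv A φ (nrep W (0 : W.toAffine.Point)) = _ • rep0 Wκ (red h hΔ 0)
      rw [hn, red_zero]
      show _ = _ • ![(0 : κ), 1, 0]
      funext i
      fin_cases i <;> simp [rdv]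
  · set ψ : K := 2 * y + W.a₁ * x + W.a₃ with hψ
    have hn := nrep_some_eq W hxy
    rw [← hψ] at hn
    by_cases hx : x ∈ A
    · -- integral affine point
      have hy : y ∈ A := y_mem_of_x_mem h hxy.1 hx
      have hψA : ψ ∈ A :=
        A.add_mem _ _ (A.add_mem _ _ (A.mul_mem _ _ h2A hy) (A.mul_mem _ _ h.m₁ hx)) h.m₃
      have hrdψ : rd A φ ψ = 2 * rd A φ y + Wκ.a₁ * rd A φ x + Wκ.a₃ := by
        rw [hψ, rd_add (A.add_mem _ _ (A.mul_mem _ _ h2A hy) (A.mul_mem _ _ h.m₁ hx)) h.m₃,
          rd_add (A.mul_mem _ _ h2A hy) (A.mul_mem _ _ h.m₁ hx), rd_mul h2A hy, rd_mul h.m₁ hx,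
          rd_ofNat, h.a₁, h.a₃]
      have hred : red h hΔ (Affine.Point.some x y hxy) =
          Affine.Point.some (rd A φ x) (rd A φ y) (rd_nonsingular h hΔ hx hxy.1) :=
        red_some_of_mem h hΔ hxy hx
      have hNred : N • red h hΔ (Affine.Point.some x y hxy) = 0 := by
        have := map_nsmul (redHom h hφ hΔ) N (Affine.Point.some x y hxy)
        simp only [redHom_apply] at this
        rw [← this, hP, red_zero]
      have hn2 : N2 Wκ (red h hΔ (Affine.Point.some x y hxy)) := n2_of_odd_nsmul h2κ hN hNred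
      have hψ1 : A.valuation ψ = 1 := by
        rw [← rd_ne_zero_iff hφ hψA, hrdψ]
        rw [hred] at hn2
        have : Lf Wκ (rep0 Wκ (Affine.Point.some (rd A φ x) (rd A φ y)
            (rd_nonsingular h hΔ hx hxy.1))) = 2 * rd A φ y + Wκ.a₁ * rd A φ x + Wκ.a₃ := by
          show Lf Wκ ![rd A φ x, rd A φ y, 1] = _
          simp [Lf]
        rw [N2, this] at hn2
        exact hn2
      have hψi : ψ⁻¹ ∈ A := inv_mem_of_val_eq_one hψ1
      refine ⟨?_, (rd A φ ψ)⁻¹, inv_ne_zero ((rd_ne_zero_iff hφ hψA).mpr hψ1), ?_⟩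
      · intro i
        rw [hn]
        fin_cases i
        · exact div_mem_of_val_eq_one hx hψ1
        · exact div_mem_of_val_eq_one hy hψ1
        · exact div_mem_of_val_eq_one A.one_mem hψ1
      · rw [hn, hred]
        show _ = _ • ![rd A φ x, rd A φ y, 1]
        funext i
        fin_cases i
        · show rd A φ (x / ψ) = (rd A φ ψ)⁻¹ * rd A φ x
          rw [rd_div hx hψ1, div_eq_inv_mul]
        · show rd A φ (y / ψ) = (rd A φ ψ)⁻¹ * rd A φ y
          rw [rd_div hy hψ1, div_eq_inv_mul]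
        · show rd A φ (1 / ψ) = (rd A φ ψ)⁻¹ * 1
          rw [rd_div A.one_mem hψ1, div_eq_inv_mul, rd_one]
    · -- a point of the kernel of reduction
      have hx1 : 1 < A.valuation x := not_mem_iff_one_lt.mp hx
      obtain ⟨hxy', -⟩ := Fermat.Agent.S05.H245.val_xy (intCoeffs_of_isRedOf h) hxy.1 hx1
      have hy1 : 1 < A.valuation y := hx1.trans hxy'
      have hlin : A.valuation (W.a₁ * x + W.a₃) < A.valuation (2 * y) := by
        rw [map_mul, h2, one_mul]
        exact lt_of_le_of_lt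
          (Fermat.Agent.S05.H245.val_lin_le (intCoeffs_of_isRedOf h) hx1.le) hxy'
      have hψv : A.valuation ψ = A.valuation y := by
        have e : ψ = 2 * y + (W.a₁ * x + W.a₃) := by rw [hψ]; ring
        rw [e, Valuation.map_add_eq_of_lt_left _ hlin, map_mul, h2, one_mul]
      have hy0 : A.valuation y ≠ 0 := (lt_trans zero_lt_one hy1).ne'
      have hv0 : A.valuation (x / ψ) < 1 := by
        rw [map_div₀, hψv]
        exact (div_lt_one₀ (lt_trans zero_lt_one hy1)).mpr hxy'
      have hv1 : A.valuation (y / ψ) = 1 := by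
        rw [map_div₀, hψv, div_self hy0]
      have hv2 : A.valuation (1 / ψ) < 1 := by
        rw [map_div₀, hψv, map_one]
        exact (div_lt_one₀ (lt_trans zero_lt_one hy1)).mpr hy1
      refine ⟨?_, rd A φ (y / ψ), (rd_ne_zero_iff hφ (mem_of_val_le hv1.le)).mpr hv1, ?_⟩
      · intro i
        rw [hn]
        fin_cases i
        · exact mem_of_val_le hv0.le
        · exact mem_of_val_le hv1.le
        · exact mem_of_val_le hv2.le
      · rw [hn, red_some_of_not_mem h hΔ hxy hx]
        show _ = _ • ![(0 : κ), 1, 0]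
        funext i
        fin_cases i
        · show rd A φ (x / ψ) = rd A φ (y / ψ) * 0
          rw [rd_eq_zero_of_lt hφ hv0, mul_zero]
        · show rd A φ (y / ψ) = rd A φ (y / ψ) * 1
          rw [mul_one]
        · show rd A φ (1 / ψ) = rd A φ (y / ψ) * 0
          rw [rd_eq_zero_of_lt hφ hv2, mul_zero]

theorem nrep_mem (h : IsRedOf A φ W Wκ) (hφ : KerMax A φ) (hΔ : Wκ.Δ ≠ 0)
    (h2 : A.valuation (2 : K) = 1) {P : W.toAffine.Point} {N : ℕ} (hN : Odd N)
    (hP : N • P = 0) (i : Fin 3) : nrep W P i ∈ A :=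
  (exists_rdv_eq h hφ hΔ h2 hN hP).1 i

theorem nonsingular_rdv (h : IsRedOf A φ W Wκ) (hφ : KerMax A φ) (hΔ : Wκ.Δ ≠ 0)
    (h2 : A.valuation (2 : K) = 1) {P : W.toAffine.Point} {N : ℕ} (hN : Odd N)
    (hP : N • P = 0) : Projective.Nonsingular Wκ (rdv A φ (nrep W P)) := by
  obtain ⟨c, hc, he⟩ := (exists_rdv_eq h hφ hΔ h2 hN hP).2
  rw [he]
  exact (Projective.nonsingular_smul _ (Ne.isUnit hc)).mpr (nonsingular_rep0 Wκ _)

theorem toAffine_rdv (h : IsRedOf A φ W Wκ) (hφ : KerMax A φ) (hΔ : Wκ.Δ ≠ 0)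
    (h2 : A.valuation (2 : K) = 1) {P : W.toAffine.Point} {N : ℕ} (hN : Odd N)
    (hP : N • P = 0) : Projective.Point.toAffine Wκ (rdv A φ (nrep W P)) = red h hΔ P := by
  obtain ⟨c, hc, he⟩ := (exists_rdv_eq h hφ hΔ h2 hN hP).2
  rw [he, Projective.Point.toAffine_smul _ (Ne.isUnit hc), toAffine_rep0]

end Fermat.Agent.S59.H382
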