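import Mathlib.AlgebraicGeometry.EllipticCurve.Projective.Point
import Mathlib.Tactic

/-!
# Row S59, piece CR-FLAT (helper382): normalised projective coordinates on a Weierstrass curve

For a point `P` of a Weierstrass curve over a field which is not a nontrivial `2`-torsion point,
`nrep W P` is the projective representative of `P` normalised by `L = 2Y + a₁X + a₃Z = 1`:
`(x/ψ, y/ψ, 1/ψ)` with `ψ = 2y + a₁x + a₃` for an affine point and `(0, 1/2, 0)` for the origin.

* `rep_eq_smul_nrep` : every nonsingular representative `V` of `P` is `L(V) • nrep P`.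
* `addXYZ_rep` : the chord law `addXYZ` of two representatives of distinct points represents
  the sum.
-/

set_option autoImplicit false
set_option linter.unusedSectionVars false

namespace Fermat.Agent.S59.H382

open WeierstrassCurve
open scoped WeierstrassCurve.Projective

/-- The linear form `L = 2Y + a₁X + a₃Z`. -/
def Lf {R : Type*} [CommRing R] (W : WeierstrassCurve R) (P : Fin 3 → R) : R :=
  2 * P 1 + W.a₁ * P 0 + W.a₃ * P 2

lemma Lf_smul {R : Type*} [CommRing R] (W : WeierstrassCurve R) (u : R) (P : Fin 3 → R) :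
    Lf W (u • P) = u * Lf W P := by
  simp only [Lf, Pi.smul_apply, smul_eq_mul]
  ring

lemma Lf_map {R S : Type*} [CommRing R] [CommRing S] (W : WeierstrassCurve R) (f : R →+* S)
    (P : Fin 3 → R) : Lf (W.map f) (f ∘ P) = f (Lf W P) := by
  simp only [Lf, WeierstrassCurve.map_a₁, WeierstrassCurve.map_a₃, Function.comp_apply, map_add,
    map_mul, map_ofNat]

variable {K : Type*} [Field K] [DecidableEq K] (W : WeierstrassCurve K)

/-- The standard representative of an affine point. -/
def rep0 : W.toAffine.Point → Fin 3 → K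
  | .zero => ![0, 1, 0]
  | .some x y _ => ![x, y, 1]

lemma nonsingular_rep0 (P : W.toAffine.Point) : Projective.Nonsingular W (rep0 W P) := by
  rcases P with _ | ⟨x, y, h⟩
  · exact Projective.nonsingular_zero
  · exact (Projective.nonsingular_some x y).mpr h

lemma toAffine_rep0 (P : W.toAffine.Point) : Projective.Point.toAffine W (rep0 W P) = P := by
  rcases P with _ | ⟨x, y, h⟩
  · exact Projective.Point.toAffine_zero
  · exact Projective.Point.toAffine_some ((Projective.nonsingular_some x y).mpr h)

/-- Every nonsingular representative is a unit multiple of the standard one. -/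
lemma exists_smul_rep0 {V : Fin 3 → K} (hV : Projective.Nonsingular W V) :
    ∃ u : K, u ≠ 0 ∧ V = u • rep0 W (Projective.Point.toAffine W V) := by
  by_cases hz : V 2 = 0
  · rw [Projective.Point.toAffine_of_Z_eq_zero hz]
    obtain ⟨u, hu⟩ := Projective.equiv_zero_of_Z_eq_zero hV hz
    exact ⟨u, u.ne_zero, hu.symm⟩
  · rw [Projective.Point.toAffine_of_Z_ne_zero hV hz]
    obtain ⟨u, hu⟩ := Projective.equiv_some_of_Z_ne_zero hz
    exact ⟨u, u.ne_zero, hu.symm⟩

/-- `P` is not a nontrivial `2`-torsion point (and `2 ≠ 0`). -/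
def N2 (P : W.toAffine.Point) : Prop := Lf W (rep0 W P) ≠ 0

/-- The representative normalised by `L = 1`. -/
noncomputable def nrep (P : W.toAffine.Point) : Fin 3 → K := (Lf W (rep0 W P))⁻¹ • rep0 W P

variable {W}

lemma Lf_nrep {P : W.toAffine.Point} (hP : N2 W P) : Lf W (nrep W P) = 1 := by
  rw [nrep, Lf_smul, inv_mul_cancel₀ hP]

lemma nonsingular_nrep {P : W.toAffine.Point} (hP : N2 W P) :
    Projective.Nonsingular W (nrep W P) :=
  (Projective.nonsingular_smul _ (Ne.isUnit (inv_ne_zero hP))).mpr (nonsingular_rep0 W P)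

lemma toAffine_nrep {P : W.toAffine.Point} (hP : N2 W P) :
    Projective.Point.toAffine W (nrep W P) = P := by
  rw [nrep, Projective.Point.toAffine_smul _ (Ne.isUnit (inv_ne_zero hP)), toAffine_rep0]

/-- Every nonsingular representative `V` of a point `P` which is not `2`-torsion is
`L(V) • nrep P`, and `L(V) ≠ 0`. -/
lemma rep_eq_smul_nrep {V : Fin 3 → K} (hV : Projective.Nonsingular W V) {P : W.toAffine.Point}
    (hVP : Projective.Point.toAffine W V = P) (hP : N2 W P) :
    Lf W V ≠ 0 ∧ V = Lf W V • nrep W P := by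
  obtain ⟨u, hu, hVu⟩ := exists_smul_rep0 W hV
  rw [hVP] at hVu
  have hL : Lf W V = u * Lf W (rep0 W P) := by rw [hVu, Lf_smul]
  refine ⟨by rw [hL]; exact mul_ne_zero hu hP, ?_⟩
  rw [nrep, smul_smul, hL, mul_assoc, mul_inv_cancel₀ hP, mul_one]
  exact hVu

/-- The chord law on representatives of two distinct points gives a representative of the sum. -/
lemma addXYZ_rep {V₁ V₂ : Fin 3 → K} (h₁ : Projective.Nonsingular W V₁)
    (h₂ : Projective.Nonsingular W V₂)
    (hne : Projective.Point.toAffine W V₁ ≠ Projective.Point.toAffine W V₂) :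
    Projective.Nonsingular W (Projective.addXYZ W V₁ V₂) ∧
      Projective.Point.toAffine W (Projective.addXYZ W V₁ V₂) =
        Projective.Point.toAffine W V₁ + Projective.Point.toAffine W V₂ := by
  have hneq : ¬ V₁ ≈ V₂ := fun h => hne (Projective.Point.toAffine_of_equiv h)
  rw [← Projective.add_of_not_equiv hneq]
  exact ⟨Projective.nonsingular_add h₁ h₂, Projective.Point.toAffine_add h₁ h₂⟩

/-- The chord law in normalised coordinates. -/
theorem addXYZ_nrep {P Q : W.toAffine.Point} (hP : N2 W P) (hQ : N2 W Q) (hPQ : N2 W (P + Q))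
    (hne : P ≠ Q) :
    Lf W (Projective.addXYZ W (nrep W P) (nrep W Q)) ≠ 0 ∧
      Projective.addXYZ W (nrep W P) (nrep W Q) =
        Lf W (Projective.addXYZ W (nrep W P) (nrep W Q)) • nrep W (P + Q) := by
  have h := addXYZ_rep (nonsingular_nrep hP) (nonsingular_nrep hQ)
    (by rw [toAffine_nrep hP, toAffine_nrep hQ]; exact hne)
  rw [toAffine_nrep hP, toAffine_nrep hQ] at h
  exact rep_eq_smul_nrep h.1 h.2 hPQ

/-- Points of odd order are not `2`-torsion. -/
lemma n2_of_odd_nsmul (h2 : (2 : K) ≠ 0) {P : W.toAffine.Point} {N : ℕ} (hN : Odd N)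
    (hP : N • P = 0) : N2 W P := by
  rcases P with _ | ⟨x, y, h⟩
  · show Lf W ![0, 1, 0] ≠ 0
    simp [Lf, h2]
  · show Lf W ![x, y, 1] ≠ 0
    intro h0
    have hy : y = W.toAffine.negY x y := by
      simp only [Lf, Matrix.cons_val_zero, Matrix.cons_val_one, Matrix.cons_val_two,
        Matrix.head_cons, Matrix.tail_cons, mul_one] at h0
      simp only [Affine.negY]
      linear_combination h0
    have hneg : Affine.Point.some x y h = -Affine.Point.some x y h := by
      rw [Affine.Point.neg_some]
      congr 1
    have h2P : (2 : ℕ) • Affine.Point.some x y h = 0 := by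
      rw [two_nsmul]
      nth_rewrite 2 [hneg]
      exact add_neg_cancel _
    obtain ⟨k, rfl⟩ := hN
    have : Affine.Point.some x y h = 0 := by
      have h3 : (2 * k + 1) • Affine.Point.some x y h =
          k • ((2 : ℕ) • Affine.Point.some x y h) + Affine.Point.some x y h := by
        rw [add_smul, one_smul, mul_comm, mul_smul]
      rw [hP, h2P, smul_zero, zero_add] at h3
      exact h3.symm
    exact Affine.Point.some_ne_zero h this

end Fermat.Agent.S59.H382
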